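import Fermat.Agent.S19.FunHopf1452.Generic

/-!
# S19 / Theorem A: Hopf orders from a basis (helper1452)

An `R`-subalgebra `H` of `M → L` (`M` a finite commutative group, `R → L` injective, `L` a field)
which has an `R`-basis that is `L`-linearly independent, is closed under comultiplication and has
`R`-valued counit is a Hopf order (`isHopfOrder_of_basis`); if the basis spans `M → L`, its
`L`-points are the evaluations at the points of `M` (`exists_eq_evalHom`, `eq_of_forall_eq`).
`exists_hopf_of_basis` packages everything in the shape of the S19 statement.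
-/

set_option autoImplicit false
set_option linter.unusedSectionVars false

open scoped TensorProduct

namespace Fermat.Agent.S19.FunHopf1452

/-- A linear map sending a basis to a linearly independent family is injective. -/
theorem injective_of_basis_li {R V W ι : Type*} [Semiring R] [AddCommMonoid V] [Module R V]
    [AddCommMonoid W] [Module R W] (f : V →ₗ[R] W) (b : Module.Basis ι R V)
    (h : LinearIndependent R (f ∘ b)) : Function.Injective f := by
  intro x y hxy
  have hx : f x = Finsupp.linearCombination R (f ∘ b) (b.repr x) := by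
    conv_lhs => rw [← b.linearCombination_repr x]
    rw [Finsupp.apply_linearCombination]
  have hy : f y = Finsupp.linearCombination R (f ∘ b) (b.repr y) := by
    conv_lhs => rw [← b.linearCombination_repr y]
    rw [Finsupp.apply_linearCombination]
  rw [hx, hy] at hxy
  exact b.repr.injective (h hxy)

section Basis

variable {R : Type*} [CommRing R] {L : Type*} [Field L] [Algebra R L]

/-- Products of two linearly independent families of functions are linearly independent. -/
theorem linearIndependent_pair {X Y ι κ : Type*} [Fintype ι] [Fintype κ] {u : ι → X → L}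
    {v : κ → Y → L} (hu : LinearIndependent L u) (hv : LinearIndependent L v) :
    LinearIndependent L (fun p : ι × κ => fun q : X × Y => u p.1 q.1 * v p.2 q.2) := by
  rw [Fintype.linearIndependent_iff] at hu hv ⊢
  intro c hc
  have key : ∀ (y : Y) (i : ι), ∑ j, c (i, j) * v j y = 0 := by
    intro y
    apply hu
    funext x
    have h1 := congrFun hc (x, y)
    simp only [Finset.sum_apply, Pi.smul_apply, smul_eq_mul, Pi.zero_apply] at h1 ⊢
    rw [Fintype.sum_prod_type] at h1
    rw [← h1]
    refine Finset.sum_congr rfl fun i _ => ?_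
    rw [Finset.sum_mul]
    refine Finset.sum_congr rfl fun j _ => ?_
    ring
  rintro ⟨i, j⟩
  refine hv (fun j => c (i, j)) ?_ j
  funext y
  simpa using key y i

variable {M : Type*} [AddCommGroup M] {H : Subalgebra R (M → L)}

theorem nsmul_comp_mem [Finite M]
    (hΔ : ∀ f : H, ∃ (m : ℕ) (g h : Fin m → H),
      ∀ x y, (f : M → L) (x + y) = ∑ j, (g j : M → L) x * (h j : M → L) y)
    (hε : ∀ f : H, (f : M → L) 0 ∈ Set.range (algebraMap R L)) (k : ℕ) :
    ∀ f : H, (fun x : M => (f : M → L) (k • x)) ∈ H := by
  induction k with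
  | zero =>
    intro f
    obtain ⟨r, hr⟩ := hε f
    have : (fun x : M => (f : M → L) ((0 : ℕ) • x)) = algebraMap R (M → L) r := by
      funext x
      simp [hr]
    rw [this]
    exact H.algebraMap_mem r
  | succ k ih =>
    intro f
    obtain ⟨m, g, h, hgh⟩ := hΔ f
    have : (fun x : M => (f : M → L) ((k + 1) • x))
        = ∑ j, (fun x : M => (g j : M → L) (k • x)) * (h j : M → L) := by
      funext x
      rw [succ_nsmul, hgh]
      simp
    rw [this]
    exact H.sum_mem fun j _ => H.mul_mem (ih (g j)) (h j).2

theorem pairMap_injective_of_basis {ι : Type*} [Fintype ι] (b : Module.Basis ι R H)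
    (hinj : Function.Injective (algebraMap R L))
    (hb : LinearIndependent L (fun i => (b i : M → L))) : Function.Injective (pairMap H) := by
  have hinj' : Function.Injective fun r : R => r • (1 : L) := by
    simpa [Algebra.smul_def] using hinj
  have hpair : LinearIndependent L (fun p : ι × ι => fun q : M × M =>
      (b p.1 : M → L) q.1 * (b p.2 : M → L) q.2) :=
    linearIndependent_pair (u := fun i => (b i : M → L)) (v := fun i => (b i : M → L)) hb hb
  have h2 : LinearIndependent R ((pairMap H).toLinearMap ∘ (b.tensorProduct b)) := by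
    have : (pairMap H).toLinearMap ∘ (b.tensorProduct b) = fun p : ι × ι => fun q : M × M =>
        (b p.1 : M → L) q.1 * (b p.2 : M → L) q.2 := by
      funext p q
      rw [Function.comp_apply, Module.Basis.tensorProduct_apply']
      rfl
    rw [this]
    exact hpair.restrict_scalars hinj'
  exact injective_of_basis_li (pairMap H).toLinearMap (b.tensorProduct b) h2

theorem tripMap_injective_of_basis {ι : Type*} [Fintype ι] (b : Module.Basis ι R H)
    (hinj : Function.Injective (algebraMap R L))
    (hb : LinearIndependent L (fun i => (b i : M → L))) : Function.Injective (tripMap H) := by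
  have hinj' : Function.Injective fun r : R => r • (1 : L) := by
    simpa [Algebra.smul_def] using hinj
  have hpair : LinearIndependent L (fun p : ι × ι => fun q : M × M =>
      (b p.1 : M → L) q.1 * (b p.2 : M → L) q.2) :=
    linearIndependent_pair (u := fun i => (b i : M → L)) (v := fun i => (b i : M → L)) hb hb
  have htrip : LinearIndependent L (fun p : ι × (ι × ι) => fun q : M × (M × M) =>
      (b p.1 : M → L) q.1 * ((b p.2.1 : M → L) q.2.1 * (b p.2.2 : M → L) q.2.2)) :=
    linearIndependent_pair (u := fun i => (b i : M → L))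
      (v := fun p : ι × ι => fun q : M × M => (b p.1 : M → L) q.1 * (b p.2 : M → L) q.2) hb hpair
  have h3 : LinearIndependent R
      ((tripMap H).toLinearMap ∘ (b.tensorProduct (b.tensorProduct b))) := by
    have : (tripMap H).toLinearMap ∘ (b.tensorProduct (b.tensorProduct b))
        = fun p : ι × (ι × ι) => fun q : M × (M × M) =>
          (b p.1 : M → L) q.1 * ((b p.2.1 : M → L) q.2.1 * (b p.2.2 : M → L) q.2.2) := by
      funext p q
      rw [Function.comp_apply, Module.Basis.tensorProduct_apply',
        Module.Basis.tensorProduct_apply']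
      rfl
    rw [this]
    exact htrip.restrict_scalars hinj'
  exact injective_of_basis_li (tripMap H).toLinearMap (b.tensorProduct (b.tensorProduct b)) h3

/-- A subalgebra of `M → L` with an `R`-basis which is `L`-linearly independent, closed under
comultiplication and with `R`-valued counit, is a Hopf order. -/
theorem isHopfOrder_of_basis [Finite M] {ι : Type*} [Finite ι] (b : Module.Basis ι R H)
    (hinj : Function.Injective (algebraMap R L))
    (hb : LinearIndependent L (fun i => (b i : M → L)))
    (hΔ : ∀ f : H, ∃ (m : ℕ) (g h : Fin m → H),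
      ∀ x y, (f : M → L) (x + y) = ∑ j, (g j : M → L) x * (h j : M → L) y)
    (hε : ∀ f : H, (f : M → L) 0 ∈ Set.range (algebraMap R L)) : IsHopfOrder H := by
  cases nonempty_fintype ι
  refine ⟨hinj, pairMap_injective_of_basis b hinj hb, tripMap_injective_of_basis b hinj hb,
    ?_, ?_, ?_⟩
  · intro f
    obtain ⟨m, g, h, hgh⟩ := hΔ f
    refine ⟨∑ j, g j ⊗ₜ[R] h j, ?_⟩
    funext q
    rw [map_sum, Finset.sum_apply]
    exact (hgh q.1 q.2).symm
  · intro f
    obtain ⟨r, hr⟩ := hε f
    exact ⟨r, hr⟩
  · intro f
    have h1 := nsmul_comp_mem hΔ hε (Nat.card M - 1) f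
    have h2 : (precomp (fun x : M => -x)).comp H.val f
        = fun x : M => (f : M → L) ((Nat.card M - 1) • x) := by
      funext x
      have h3 : (Nat.card M - 1) • x + x = 0 := by
        rw [← succ_nsmul, Nat.sub_add_cancel Nat.card_pos]
        exact card_nsmul_eq_zero'
      have h4 : (Nat.card M - 1) • x = -x := eq_neg_of_add_eq_zero_left h3
      rw [h4]
      rfl
    rw [h2]
    exact h1

/-- The `L`-points of a full-rank order `H ⊆ (M → L)` are the evaluations at the points of `M`. -/
theorem exists_eq_evalHom [Finite M] {ι : Type*} [Finite ι] (b : Module.Basis ι R H)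
    (hb : LinearIndependent L (fun i => (b i : M → L)))
    (hspan : Submodule.span L (Set.range (fun i => (b i : M → L))) = ⊤)
    (φ : H →ₐ[R] L) : ∃ x, φ = evalHom H x := by
  classical
  cases nonempty_fintype ι
  cases nonempty_fintype M
  let bL : Module.Basis ι L (M → L) := Module.Basis.mk hb hspan.ge
  have hbL : ∀ i, bL i = (b i : M → L) := fun i => by simp [bL]
  let Φ : (M → L) →ₗ[L] L := bL.constr L (fun i => φ (b i))
  have hΦb : ∀ i, Φ (b i : M → L) = φ (b i) := fun i => by
    rw [← hbL i]
    simp [Φ]
  have hΦsmul : ∀ (r : R) (u : M → L), Φ (r • u) = r • Φ u := fun r u => by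
    rw [← algebraMap_smul L r u, map_smul, algebraMap_smul]
  have hΦH : ∀ f : H, Φ (f : M → L) = φ f := fun f => by
    conv_lhs => rw [← b.sum_repr f]
    conv_rhs => rw [← b.sum_repr f]
    simp only [AddSubmonoidClass.coe_finsetSum, Subalgebra.coe_smul, map_sum, hΦsmul, hΦb,
      map_smul]
  have h1 : ∀ (j : ι) (u : M → L), Φ (u * (b j : M → L)) = Φ u * Φ (b j : M → L) := fun j => by
    have h := bL.ext (f₁ := Φ ∘ₗ LinearMap.mulRight L (b j : M → L))
      (f₂ := Φ (b j : M → L) • Φ) (fun i => by
        rw [hbL]
        have : (b i : M → L) * (b j : M → L) = ((b i * b j : H) : M → L) := rfl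
        simp only [LinearMap.comp_apply, LinearMap.mulRight_apply, LinearMap.smul_apply,
          smul_eq_mul, this, hΦH, map_mul]
        rw [mul_comm])
    intro u
    have h' := LinearMap.congr_fun h u
    simp only [LinearMap.comp_apply, LinearMap.mulRight_apply, LinearMap.smul_apply,
      smul_eq_mul] at h'
    rw [h', mul_comm]
  have h2 : ∀ u v : M → L, Φ (u * v) = Φ u * Φ v := fun u => by
    have h := bL.ext (f₁ := Φ ∘ₗ LinearMap.mulLeft L u) (f₂ := Φ u • Φ) (fun j => by
      rw [hbL]
      simp only [LinearMap.comp_apply, LinearMap.mulLeft_apply, LinearMap.smul_apply,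
        smul_eq_mul, h1])
    intro v
    have h' := LinearMap.congr_fun h v
    simpa only [LinearMap.comp_apply, LinearMap.mulLeft_apply, LinearMap.smul_apply,
      smul_eq_mul] using h'
  have hone : Φ 1 = 1 := by
    have := hΦH 1
    simpa using this
  have hsum : ∑ y : M, Φ (Pi.single y 1) = 1 := by
    have h := Finset.univ_sum_single (1 : M → L)
    simp only [Pi.one_apply] at h
    rw [← map_sum, h, hone]
  obtain ⟨x, hx⟩ : ∃ x : M, Φ (Pi.single x 1) ≠ 0 := by
    by_contra hcon
    push Not at hcon
    rw [Finset.sum_eq_zero (fun y _ => hcon y)] at hsum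
    exact zero_ne_one hsum
  have hidem : (Pi.single x 1 : M → L) * Pi.single x 1 = Pi.single x 1 := by
    rw [← Pi.single_mul, mul_one]
  have hx1 : Φ (Pi.single x 1) = 1 := by
    have h := h2 (Pi.single x 1) (Pi.single x 1)
    rw [hidem] at h
    exact (mul_eq_left₀ hx).mp h.symm
  have heval : ∀ u : M → L, Φ u = u x := fun u => by
    have h3 : u * Pi.single x 1 = u x • (Pi.single x 1 : M → L) := by
      funext y
      by_cases hy : y = x
      · subst hy; simp
      · simp [Pi.single_eq_of_ne hy]
    have h4 := h2 u (Pi.single x 1)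
    rw [h3, map_smul, hx1, mul_one, smul_eq_mul, mul_one] at h4
    exact h4.symm
  exact ⟨x, AlgHom.ext fun f => by rw [← hΦH f, heval]; rfl⟩

/-- A full-rank order separates the points of `M`. -/
theorem eq_of_forall_eq {ι : Type*} (b : ι → H)
    (hspan : Submodule.span L (Set.range (fun i => (b i : M → L))) = ⊤) (x y : M)
    (h : ∀ f : H, (f : M → L) x = (f : M → L) y) : x = y := by
  classical
  let S : Submodule L (M → L) :=
    { carrier := {u | u x = u y}
      add_mem' := fun {u v} hu hv => by
        change u x = u y at hu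
        change v x = v y at hv
        change u x + v x = u y + v y
        rw [hu, hv]
      zero_mem' := rfl
      smul_mem' := fun c u hu => by
        change u x = u y at hu
        change c • u x = c • u y
        rw [hu] }
  have hS : Submodule.span L (Set.range (fun i => (b i : M → L))) ≤ S := by
    rw [Submodule.span_le]
    rintro _ ⟨i, rfl⟩
    exact h (b i)
  rw [hspan] at hS
  have h1 : (Pi.single x 1 : M → L) x = (Pi.single x 1 : M → L) y := hS Submodule.mem_top
  by_contra hxy
  rw [Pi.single_eq_same, Pi.single_eq_of_ne (Ne.symm hxy)] at h1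
  exact one_ne_zero h1

end Basis

/-- **Generic Hopf order theorem**, in the shape of the S19 statement.  `H` is an `R`-subalgebra of
`M → L` with an `R`-basis that is also an `L`-basis of `M → L`, closed under comultiplication, with
`R`-valued counit.  Then `H` is a finite flat cocommutative Hopf algebra over `R` whose `L`-points
are the evaluations at the points of `M`, convolution corresponding to addition. -/
theorem exists_hopf_of_basis {R L M : Type} [CommRing R] [Field L] [Algebra R L] [AddCommGroup M]
    [Finite M] (H : Subalgebra R (M → L)) {ι : Type*} [Finite ι] (b : Module.Basis ι R H)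
    (hinj : Function.Injective (algebraMap R L))
    (hb : LinearIndependent L (fun i => (b i : M → L)))
    (hspan : Submodule.span L (Set.range (fun i => (b i : M → L))) = ⊤)
    (hΔ : ∀ f : H, ∃ (m : ℕ) (g h : Fin m → H),
      ∀ x y, (f : M → L) (x + y) = ∑ j, (g j : M → L) x * (h j : M → L) y)
    (hε : ∀ f : H, (f : M → L) 0 ∈ Set.range (algebraMap R L)) :
    ∃ (H' : Type) (_ : CommRing H') (_ : HopfAlgebra R H'),
      Module.Finite R H' ∧ Module.Flat R H' ∧ Coalgebra.IsCocomm R H' ∧
      ∃ (j : H' → M → L) (e : WithConv (H' →ₐ[R] L) ≃ M),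
        (∀ h, j h ∈ H) ∧ (∀ x y, (∀ h, j h x = j h y) → x = y) ∧
        (∀ f g, e (f * g) = e f + e g) ∧
        ∀ (φ : WithConv (H' →ₐ[R] L)) (h : H'), φ.ofConv h = j h (e φ) := by
  have hd := isHopfOrder_of_basis b hinj hb hΔ hε
  have hfree : Module.Free R H := Module.Free.of_basis b
  refine ⟨H, inferInstance, hopfAlgebra hd, Module.Finite.of_basis b, Module.Flat.of_free,
    isCocomm hd, Subtype.val, ?_⟩
  obtain ⟨e, he1, he2⟩ := exists_equiv hd (exists_eq_evalHom b hb hspan)
    (eq_of_forall_eq b hspan)
  exact ⟨e, fun h => h.2, fun x y hxy => eq_of_forall_eq b hspan x y hxy, he2, he1⟩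

/-- Variant of `exists_hopf_of_basis` for a family `b` of `Nat.card M` elements of `H` that is
`L`-linearly independent and spans `H` over `R`. -/
theorem exists_hopf_of_family {R L M : Type} [CommRing R] [Field L] [Algebra R L] [AddCommGroup M]
    [Finite M] (H : Subalgebra R (M → L)) (hinj : Function.Injective (algebraMap R L))
    (b : Fin (Nat.card M) → M → L) (hbH : ∀ i, b i ∈ H) (hbL : LinearIndependent L b)
    (hbR : ∀ f ∈ H, f ∈ Submodule.span R (Set.range b))
    (hΔ : ∀ f ∈ H, ∃ (m : ℕ) (g h : Fin m → M → L), (∀ j, g j ∈ H) ∧ (∀ j, h j ∈ H) ∧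
      ∀ x y, f (x + y) = ∑ j, g j x * h j y)
    (hε : ∀ f ∈ H, f 0 ∈ Set.range (algebraMap R L)) :
    ∃ (H' : Type) (_ : CommRing H') (_ : HopfAlgebra R H'),
      Module.Finite R H' ∧ Module.Flat R H' ∧ Coalgebra.IsCocomm R H' ∧
      ∃ (j : H' → M → L) (e : WithConv (H' →ₐ[R] L) ≃ M),
        (∀ h, j h ∈ H) ∧ (∀ x y, (∀ h, j h x = j h y) → x = y) ∧
        (∀ f g, e (f * g) = e f + e g) ∧
        ∀ (φ : WithConv (H' →ₐ[R] L)) (h : H'), φ.ofConv h = j h (e φ) := by
  classical
  cases nonempty_fintype M
  have hinj' : Function.Injective fun r : R => r • (1 : L) := by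
    simpa [Algebra.smul_def] using hinj
  let b' : Fin (Nat.card M) → H := fun i => ⟨b i, hbH i⟩
  have hliR : LinearIndependent R b := hbL.restrict_scalars hinj'
  have hli' : LinearIndependent R b' := by
    refine LinearIndependent.of_comp H.val.toLinearMap ?_
    exact hliR
  have hsp' : ⊤ ≤ Submodule.span R (Set.range b') := by
    rintro f -
    have h1 : (f : M → L) ∈ Submodule.span R (Set.range b) := hbR f f.2
    have h2 : Set.range b = H.val.toLinearMap '' Set.range b' := by
      rw [← Set.range_comp]
      rfl
    rw [h2, ← Submodule.map_span] at h1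
    obtain ⟨g, hg, hgf⟩ := h1
    have : g = f := Subtype.ext hgf
    rw [← this]
    exact hg
  let bH : Module.Basis (Fin (Nat.card M)) R H := Module.Basis.mk hli' hsp'
  have hbH' : ∀ i, (bH i : M → L) = b i := fun i => by
    simp [bH, b']
  have hfun : (fun i => (bH i : M → L)) = b := funext hbH'
  have hb : LinearIndependent L (fun i => (bH i : M → L)) := by
    rw [hfun]
    exact hbL
  have hspan : Submodule.span L (Set.range (fun i => (bH i : M → L))) = ⊤ := by
    rw [hfun]
    refine hbL.span_eq_top_of_card_eq_finrank' ?_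
    rw [Module.finrank_fintype_fun_eq_card, Fintype.card_fin, Nat.card_eq_fintype_card]
  have hΔ' : ∀ f : H, ∃ (m : ℕ) (g h : Fin m → H),
      ∀ x y, (f : M → L) (x + y) = ∑ j, (g j : M → L) x * (h j : M → L) y := by
    intro f
    obtain ⟨m, g, h, hg, hh, hgh⟩ := hΔ f f.2
    exact ⟨m, fun j => ⟨g j, hg j⟩, fun j => ⟨h j, hh j⟩, hgh⟩
  exact exists_hopf_of_basis H bH hinj hb hspan hΔ' (fun f => hε f f.2)

end Fermat.Agent.S19.FunHopf1452
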