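import Mathlib

/-!
# S19 / Theorem A: a generic "Hopf order" construction (helper1452)

Let `R → L` be an injective ring map into a field, `M` a finite commutative group and `H` an
`R`-subalgebra of the function algebra `M → L`.  If `H ⊗ H → (M × M → L)` and
`H ⊗ (H ⊗ H) → (M × M × M → L)` are injective, `f (x + y)` lies in the image of `H ⊗ H` for every
`f ∈ H`, `f 0` lies in `R` and `f (-x)` lies in `H`, then `H` is a cocommutative Hopf algebra over
`R` (`hopfAlgebra`) whose convolution monoid of `L`-points contains the evaluations, with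
`ev x * ev y = ev (x + y)`.
-/

set_option autoImplicit false
set_option linter.unusedSectionVars false

open scoped TensorProduct

namespace Fermat.Agent.S19.FunHopf1452

section Generic

variable {R : Type*} [CommRing R] {L : Type*} [Field L] [Algebra R L]

/-- Precomposition with a map, as a homomorphism of function algebras. -/
def precomp {X Y : Type*} (g : Y → X) : (X → L) →ₐ[R] (Y → L) where
  toFun f := f ∘ g
  map_one' := rfl
  map_mul' _ _ := rfl
  map_zero' := rfl
  map_add' _ _ := rfl
  commutes' _ := rfl

@[simp] theorem precomp_apply {X Y : Type*} (g : Y → X) (f : X → L) (y : Y) :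
    (precomp (R := R) g f) y = f (g y) := rfl

/-- Lift an algebra homomorphism through an injective one. -/
noncomputable def liftInj {A B C : Type*} [Semiring A] [Semiring B] [Semiring C] [Algebra R A]
    [Algebra R B] [Algebra R C] (ι : B →ₐ[R] C) (hι : Function.Injective ι) (ψ : A →ₐ[R] C)
    (h : ∀ a, ψ a ∈ ι.range) : A →ₐ[R] B :=
  ((AlgEquiv.ofInjective ι hι).symm : ι.range →ₐ[R] B).comp (ψ.codRestrict ι.range h)

theorem liftInj_spec {A B C : Type*} [Semiring A] [Semiring B] [Semiring C] [Algebra R A]
    [Algebra R B] [Algebra R C] (ι : B →ₐ[R] C) (hι : Function.Injective ι) (ψ : A →ₐ[R] C)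
    (h : ∀ a, ψ a ∈ ι.range) (a : A) : ι (liftInj ι hι ψ h a) = ψ a := by
  have h1 : ((AlgEquiv.ofInjective ι hι) (liftInj ι hι ψ h a) : C) = ψ a := by
    unfold liftInj
    simp
  simpa using h1

variable {M : Type*} [AddCommGroup M] (H : Subalgebra R (M → L))

/-- `f ⊗ g ↦ ((x, y) ↦ f x * g y)`. -/
noncomputable def pairMap : H ⊗[R] H →ₐ[R] (M × M → L) :=
  Algebra.TensorProduct.productMap ((precomp Prod.fst).comp H.val) ((precomp Prod.snd).comp H.val)

@[simp] theorem pairMap_tmul (f g : H) (p : M × M) :
    pairMap H (f ⊗ₜ[R] g) p = (f : M → L) p.1 * (g : M → L) p.2 := rfl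

/-- `f ⊗ (g ⊗ h) ↦ ((x, y, z) ↦ f x * (g y * h z))`. -/
noncomputable def tripMap : H ⊗[R] (H ⊗[R] H) →ₐ[R] (M × M × M → L) :=
  Algebra.TensorProduct.productMap ((precomp Prod.fst).comp H.val)
    ((precomp Prod.snd).comp (pairMap H))

@[simp] theorem tripMap_tmul (f : H) (t : H ⊗[R] H) (p : M × M × M) :
    tripMap H (f ⊗ₜ[R] t) p = (f : M → L) p.1 * pairMap H t p.2 := rfl

/-- The hypotheses making `H` a Hopf order in `M → L`. -/
structure IsHopfOrder : Prop where
  algebraMap_inj : Function.Injective (algebraMap R L)
  inj₂ : Function.Injective (pairMap H)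
  inj₃ : Function.Injective (tripMap H)
  comul_mem : ∀ f : H, (precomp (fun p : M × M => p.1 + p.2)).comp H.val f ∈ (pairMap H).range
  counit_mem : ∀ f : H, (Pi.evalAlgHom R (fun _ : M => L) 0).comp H.val f ∈ (Algebra.ofId R L).range
  antipode_mem : ∀ f : H, (precomp (fun x : M => -x)).comp H.val f ∈ H

variable {H} (hd : IsHopfOrder H)

/-- The comultiplication of a Hopf order. -/
noncomputable def comulHom : H →ₐ[R] H ⊗[R] H :=
  liftInj (pairMap H) hd.inj₂ ((precomp (fun p : M × M => p.1 + p.2)).comp H.val) hd.comul_mem

theorem pairMap_comulHom (f : H) (x y : M) :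
    pairMap H (comulHom hd f) (x, y) = (f : M → L) (x + y) :=
  congrFun (liftInj_spec (pairMap H) hd.inj₂ _ hd.comul_mem f) (x, y)

/-- The counit of a Hopf order. -/
noncomputable def counitHom : H →ₐ[R] R :=
  liftInj (Algebra.ofId R L) hd.algebraMap_inj ((Pi.evalAlgHom R (fun _ : M => L) 0).comp H.val)
    hd.counit_mem

theorem algebraMap_counitHom (f : H) : algebraMap R L (counitHom hd f) = (f : M → L) 0 :=
  liftInj_spec (Algebra.ofId R L) hd.algebraMap_inj _ hd.counit_mem f

/-- The antipode of a Hopf order. -/
noncomputable def antipodeHom : H →ₐ[R] H :=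
  ((precomp (fun x : M => -x)).comp H.val).codRestrict H hd.antipode_mem

theorem antipodeHom_apply (f : H) (x : M) : (antipodeHom hd f : M → L) x = (f : M → L) (-x) := rfl

theorem tripMap_assoc_tmul (s : H ⊗[R] H) (b : H) (x y z : M) :
    tripMap H (Algebra.TensorProduct.assoc R R R H H H (s ⊗ₜ[R] b)) (x, y, z)
      = pairMap H s (x, y) * (b : M → L) z := by
  induction s using TensorProduct.induction_on with
  | zero => simp
  | tmul a c => simp [mul_assoc]
  | add s t hs ht => simp only [TensorProduct.add_tmul, map_add, Pi.add_apply, hs, ht, add_mul]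

theorem tripMap_assoc_map (t : H ⊗[R] H) (x y z : M) :
    tripMap H (Algebra.TensorProduct.assoc R R R H H H
      (Algebra.TensorProduct.map (comulHom hd) (AlgHom.id R H) t)) (x, y, z)
      = pairMap H t (x + y, z) := by
  induction t using TensorProduct.induction_on with
  | zero => simp
  | tmul a b =>
    rw [Algebra.TensorProduct.map_tmul, tripMap_assoc_tmul, pairMap_comulHom]
    simp
  | add s t hs ht => simp only [map_add, Pi.add_apply, hs, ht]

theorem tripMap_map (t : H ⊗[R] H) (x y z : M) :
    tripMap H (Algebra.TensorProduct.map (AlgHom.id R H) (comulHom hd) t) (x, y, z)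
      = pairMap H t (x, y + z) := by
  induction t using TensorProduct.induction_on with
  | zero => simp
  | tmul a b =>
    rw [Algebra.TensorProduct.map_tmul, tripMap_tmul, pairMap_comulHom]
    simp
  | add s t hs ht => simp only [map_add, Pi.add_apply, hs, ht]

theorem lid_map_counit (t : H ⊗[R] H) (y : M) :
    ((Algebra.TensorProduct.lid R H
      (Algebra.TensorProduct.map (counitHom hd) (AlgHom.id R H) t) : H) : M → L) y
      = pairMap H t (0, y) := by
  induction t using TensorProduct.induction_on with
  | zero => simp
  | tmul a b =>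
    rw [Algebra.TensorProduct.map_tmul, Algebra.TensorProduct.lid_tmul]
    simp [Algebra.smul_def, algebraMap_counitHom]
  | add s t hs ht => simp only [map_add, Subalgebra.coe_add, Pi.add_apply, hs, ht]

theorem rid_map_counit (t : H ⊗[R] H) (x : M) :
    ((Algebra.TensorProduct.rid R R H
      (Algebra.TensorProduct.map (AlgHom.id R H) (counitHom hd) t) : H) : M → L) x
      = pairMap H t (x, 0) := by
  induction t using TensorProduct.induction_on with
  | zero => simp
  | tmul a b =>
    rw [Algebra.TensorProduct.map_tmul, Algebra.TensorProduct.rid_tmul]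
    simp [Algebra.smul_def, algebraMap_counitHom, mul_comm]
  | add s t hs ht => simp only [map_add, Subalgebra.coe_add, Pi.add_apply, hs, ht]

theorem mul_rTensor_antipode (t : H ⊗[R] H) (x : M) :
    ((LinearMap.mul' R H ((antipodeHom hd).toLinearMap.rTensor H t) : H) : M → L) x
      = pairMap H t (-x, x) := by
  induction t using TensorProduct.induction_on with
  | zero => simp
  | tmul a b => simp [antipodeHom_apply]
  | add s t hs ht => simp only [map_add, Subalgebra.coe_add, Pi.add_apply, hs, ht]

theorem mul_lTensor_antipode (t : H ⊗[R] H) (x : M) :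
    ((LinearMap.mul' R H ((antipodeHom hd).toLinearMap.lTensor H t) : H) : M → L) x
      = pairMap H t (x, -x) := by
  induction t using TensorProduct.induction_on with
  | zero => simp
  | tmul a b => simp [antipodeHom_apply]
  | add s t hs ht => simp only [map_add, Subalgebra.coe_add, Pi.add_apply, hs, ht]

theorem pairMap_comm (t : H ⊗[R] H) (x y : M) :
    pairMap H (TensorProduct.comm R H H t) (x, y) = pairMap H t (y, x) := by
  induction t using TensorProduct.induction_on with
  | zero => simp
  | tmul a b => simp [mul_comm]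
  | add s t hs ht => simp only [map_add, Pi.add_apply, hs, ht]

/-- The bialgebra structure of a Hopf order. -/
noncomputable abbrev bialgebra : Bialgebra R H :=
  Bialgebra.ofAlgHom (comulHom hd) (counitHom hd)
    (by
      refine AlgHom.ext fun f => hd.inj₃ (funext fun ⟨x, y, z⟩ => ?_)
      have h1 := tripMap_assoc_map hd (comulHom hd f) x y z
      have h2 := tripMap_map hd (comulHom hd f) x y z
      rw [pairMap_comulHom] at h1 h2
      rw [add_assoc] at h1
      exact h1.trans h2.symm)
    (by
      refine AlgHom.ext fun f => ?_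
      show Algebra.TensorProduct.map (counitHom hd) (AlgHom.id R H) (comulHom hd f)
        = (Algebra.TensorProduct.lid R H).symm f
      rw [AlgEquiv.eq_symm_apply]
      refine Subtype.ext (funext fun y => ?_)
      have h1 := lid_map_counit hd (comulHom hd f) y
      rw [pairMap_comulHom, zero_add] at h1
      exact h1)
    (by
      refine AlgHom.ext fun f => ?_
      show Algebra.TensorProduct.map (AlgHom.id R H) (counitHom hd) (comulHom hd f)
        = (Algebra.TensorProduct.rid R R H).symm f
      rw [AlgEquiv.eq_symm_apply]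
      refine Subtype.ext (funext fun y => ?_)
      have h1 := rid_map_counit hd (comulHom hd f) y
      rw [pairMap_comulHom, add_zero] at h1
      exact h1)

/-- The Hopf algebra structure of a Hopf order. -/
noncomputable abbrev hopfAlgebra : HopfAlgebra R H :=
  { bialgebra hd with
    antipode := (antipodeHom hd).toLinearMap
    mul_antipode_rTensor_comul := by
      refine LinearMap.ext fun f => Subtype.ext (funext fun x => ?_)
      have h1 := mul_rTensor_antipode hd (comulHom hd f) x
      rw [pairMap_comulHom, neg_add_cancel, ← algebraMap_counitHom hd f] at h1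
      exact h1
    mul_antipode_lTensor_comul := by
      refine LinearMap.ext fun f => Subtype.ext (funext fun x => ?_)
      have h1 := mul_lTensor_antipode hd (comulHom hd f) x
      rw [pairMap_comulHom, add_neg_cancel, ← algebraMap_counitHom hd f] at h1
      exact h1 }

theorem isCocomm : @Coalgebra.IsCocomm R H _ _ _ (hopfAlgebra hd).toCoalgebra := by
  let _ := hopfAlgebra hd
  refine ⟨LinearMap.ext fun f => hd.inj₂ (funext fun ⟨x, y⟩ => ?_)⟩
  have h1 := pairMap_comm (comulHom hd f) x y
  rw [pairMap_comulHom] at h1
  have h2 := pairMap_comulHom hd f x y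
  rw [add_comm y x] at h1
  exact h1.trans h2.symm

variable (H) in
/-- Evaluation at a point of `M`, as an `L`-point of `H`. -/
def evalHom (x : M) : H →ₐ[R] L := (Pi.evalAlgHom R (fun _ : M => L) x).comp H.val

@[simp] theorem evalHom_apply (x : M) (f : H) : evalHom H x f = (f : M → L) x := rfl

theorem lift_evalHom (x y : M) (t : H ⊗[R] H) :
    Algebra.TensorProduct.lift (evalHom H x) (evalHom H y) (fun _ _ => Commute.all _ _) t
      = pairMap H t (x, y) := by
  induction t using TensorProduct.induction_on with
  | zero => simp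
  | tmul a b => simp
  | add s t hs ht => simp only [map_add, Pi.add_apply, hs, ht]

theorem convMul_evalHom (x y : M) :
    letI := hopfAlgebra hd
    (WithConv.toConv (evalHom H x) * WithConv.toConv (evalHom H y) : WithConv (H →ₐ[R] L))
      = WithConv.toConv (evalHom H (x + y)) := by
  let _ := hopfAlgebra hd
  refine WithConv.ext (AlgHom.ext fun f => ?_)
  have h1 := AlgHom.convMul_apply (WithConv.toConv (evalHom H x)) (WithConv.toConv (evalHom H y)) f
  refine h1.trans ?_
  show Algebra.TensorProduct.lift (evalHom H x) (evalHom H y) (fun _ _ => Commute.all _ _)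
    (comulHom hd f) = _
  rw [lift_evalHom, pairMap_comulHom]
  rfl

/-- If the `L`-points of a Hopf order `H ⊆ (M → L)` are exactly the evaluations at the points of
`M`, then `M` is the group of `L`-points of `H`. -/
theorem exists_equiv (hpts : ∀ φ : H →ₐ[R] L, ∃ x, φ = evalHom H x)
    (hsep : ∀ x y : M, (∀ f : H, (f : M → L) x = (f : M → L) y) → x = y) :
    letI := hopfAlgebra hd
    ∃ e : WithConv (H →ₐ[R] L) ≃ M, (∀ φ (f : H), φ.ofConv f = (f : M → L) (e φ)) ∧
      ∀ φ ψ, e (φ * ψ) = e φ + e ψ := by
  let _ := hopfAlgebra hd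
  have hbij : Function.Bijective (fun x : M => (WithConv.toConv (evalHom H x) :
      WithConv (H →ₐ[R] L))) := by
    constructor
    · intro x y hxy
      refine hsep x y fun f => ?_
      have := congrArg (fun φ : WithConv (H →ₐ[R] L) => φ.ofConv f) hxy
      simpa using this
    · intro φ
      obtain ⟨x, hx⟩ := hpts φ.ofConv
      exact ⟨x, WithConv.ext hx.symm⟩
  let e₀ : M ≃ WithConv (H →ₐ[R] L) := Equiv.ofBijective _ hbij
  have he₀ : ∀ x, e₀ x = WithConv.toConv (evalHom H x) := fun x => rfl
  refine ⟨e₀.symm, fun φ f => ?_, fun φ ψ => ?_⟩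
  · have h1 : e₀ (e₀.symm φ) = φ := e₀.apply_symm_apply φ
    rw [he₀] at h1
    have h2 := congrArg (fun χ : WithConv (H →ₐ[R] L) => χ.ofConv f) h1
    simpa using h2.symm
  · apply e₀.injective
    rw [Equiv.apply_symm_apply, he₀, ← convMul_evalHom hd, ← he₀, ← he₀, Equiv.apply_symm_apply,
      Equiv.apply_symm_apply]

end Generic

end Fermat.Agent.S19.FunHopf1452
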